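import Fermat.Agent.StanleyWilf.MarcusTardos
import Mathlib.Analysis.Subadditive
import Mathlib.Analysis.SpecialFunctions.Pow.Real
import Mathlib.Logic.Equiv.Fin.Basic

/-!
# Growth of pattern-avoiding permutations

By Klazar's reduction the theorem of Marcus and Tardos bounds the number of permutations avoiding
a pattern by an exponential, and by Arratia's direct sums the growth rate is a limit.
-/

set_option autoImplicit false

noncomputable section

namespace FA.StanleyWilf

open Finset Filter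
open scoped Topology

/-- `π` contains the pattern `σ`. -/
def PatternIn {k n : ℕ} (σ : Equiv.Perm (Fin k)) (π : Equiv.Perm (Fin n)) : Prop :=
  ∃ f : Fin k → Fin n, StrictMono f ∧ ∀ i j, σ i < σ j ↔ π (f i) < π (f j)

/-- The number of permutations of `n` letters avoiding `σ`. -/
def avoidCount {k : ℕ} (σ : Equiv.Perm (Fin k)) (n : ℕ) : ℕ :=
  Nat.card {π : Equiv.Perm (Fin n) // ¬PatternIn σ π}

variable {k : ℕ} (σ : Equiv.Perm (Fin k))

open scoped Classical in
/-- The sets of cells avoiding `σ`. -/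
def avoidSets (n : ℕ) : Finset (Finset (ℕ × ℕ)) :=
  (grid n).powerset.filter fun M => ¬GridContains M σ

theorem card_avoidSets_double (n : ℕ) :
    #(avoidSets σ (2 * n)) ≤ #(avoidSets σ n) * 16 ^ (mtConst k * n) := by
  classical
  obtain ⟨cell, hcell⟩ : ∃ cell : ℕ × ℕ → Finset (ℕ × ℕ),
      cell = fun b => Ico (b.1 * 2) (b.1 * 2 + 2) ×ˢ Ico (b.2 * 2) (b.2 * 2 + 2) := ⟨_, rfl⟩
  have hsub : avoidSets σ (2 * n) ⊆ (avoidSets σ n).biUnion fun B => (B.biUnion cell).powerset := by
    intro M hM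
    obtain ⟨hMg, hav⟩ := mem_filter.1 hM
    refine mem_biUnion.2 ⟨M.image (block 2), mem_filter.2 ⟨mem_powerset.2 fun b hb => ?_,
      fun h => hav (gridContains_of_image_block h)⟩, mem_powerset.2 fun x hx => ?_⟩
    · obtain ⟨x, hx, rfl⟩ := mem_image.1 hb
      have := mem_product.1 (mem_powerset.1 hMg hx)
      simp only [mem_range] at this
      simp only [mem_product, mem_range, block]
      omega
    · refine mem_biUnion.2 ⟨block 2 x, mem_image_of_mem _ hx, ?_⟩
      simp only [hcell, mem_product, mem_Ico, block]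
      omega
  refine (card_le_card hsub).trans (card_biUnion_le_card_mul _ _ _ fun B hB => ?_)
  obtain ⟨hBg, hav⟩ := mem_filter.1 hB
  have hc : #(B.biUnion cell) ≤ 4 * (mtConst k * n) := by
    refine (card_biUnion_le_card_mul _ _ 4 fun b _ => by simp [hcell]).trans ?_
    rw [mul_comm]
    exact Nat.mul_le_mul_left 4 (card_le_of_avoids n (mem_powerset.1 hBg) hav)
  rw [card_powerset, show (16 : ℕ) = 2 ^ 4 by rfl, ← pow_mul]
  exact Nat.pow_le_pow_right two_pos hc

theorem card_avoidSets_two_pow (j : ℕ) :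
    #(avoidSets σ (2 ^ j)) ≤ 2 * 16 ^ (mtConst k * 2 ^ j) := by
  classical
  induction j with
  | zero =>
    refine (card_le_card (filter_subset _ _)).trans ?_
    simp only [pow_zero, card_powerset, card_product, card_range, mul_one, pow_one]
    exact Nat.le_mul_of_pos_right 2 (by positivity)
  | succ j ih =>
    rw [pow_succ', two_mul (2 ^ j), mul_add, pow_add, ← two_mul, ← mul_assoc]
    exact (card_avoidSets_double σ _).trans (Nat.mul_le_mul_right _ ih)

theorem avoidSets_mono {m n : ℕ} (h : m ≤ n) : avoidSets σ m ⊆ avoidSets σ n := by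
  classical
  refine fun M hM => mem_filter.2 ⟨mem_powerset.2 ((mem_powerset.1 (mem_filter.1 hM).1).trans ?_),
    (mem_filter.1 hM).2⟩
  exact product_subset_product (range_subset_range.2 h) (range_subset_range.2 h)

/-- **The Stanley–Wilf bound.** -/
theorem avoidCount_le {n : ℕ} (hn : 0 < n) :
    avoidCount σ n ≤ (2 * 16 ^ (2 * mtConst k)) ^ n := by
  classical
  let graph : {π : Equiv.Perm (Fin n) // ¬PatternIn σ π} → ↥(avoidSets σ n) := fun π =>
    ⟨(univ : Finset (Fin n)).image fun i : Fin n => ((i : ℕ), (π.1 i : ℕ)),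
      mem_filter.2 ⟨mem_powerset.2 fun x hx => by
        obtain ⟨i, -, rfl⟩ := mem_image.1 hx
        simp, fun ⟨r, c, hr, hc, h⟩ => π.2 <| by
        choose f _ hf using fun i => mem_image.1 (h i)
        simp only [Prod.mk.injEq] at hf
        refine ⟨f, fun a b hab => ?_, fun i j => ?_⟩
        · exact Fin.val_fin_lt.1 (by rw [(hf a).1, (hf b).1]; exact hr hab)
        · rw [← Fin.val_fin_lt (a := π.1 (f i)), (hf i).2, (hf j).2, hc.lt_iff_lt]⟩⟩
  have hinj : Function.Injective graph := fun π ρ h => by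
    refine Subtype.ext (Equiv.ext fun i => ?_)
    have hi : ((i : ℕ), (π.1 i : ℕ)) ∈ (graph ρ).1 := h ▸ mem_image_of_mem _ (mem_univ i)
    obtain ⟨j, -, hj⟩ := mem_image.1 hi
    obtain ⟨h1, h2⟩ := Prod.mk.injEq _ _ _ _ ▸ hj
    rw [Fin.ext h1] at h2
    exact Fin.ext h2.symm
  obtain ⟨j, hj1, hj2⟩ : ∃ j, n ≤ 2 ^ j ∧ 2 ^ j ≤ 2 * n := by
    refine ⟨Nat.clog 2 n, Nat.le_pow_clog one_lt_two n, ?_⟩
    rcases Nat.eq_or_lt_of_le hn with rfl | hn
    · simp
    have := Nat.pow_pred_clog_lt_self one_lt_two hn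
    obtain ⟨i, hi⟩ : ∃ i, Nat.clog 2 n = i + 1 :=
      ⟨_, (Nat.succ_pred_eq_of_pos (Nat.clog_pos one_lt_two hn)).symm⟩
    rw [hi, Nat.pred_succ] at this
    rw [hi, pow_succ]
    omega
  calc avoidCount σ n ≤ Nat.card ↥(avoidSets σ n) := Nat.card_le_card_of_injective graph hinj
    _ = #(avoidSets σ n) := Nat.card_eq_finsetCard _
    _ ≤ #(avoidSets σ (2 ^ j)) := card_le_card (avoidSets_mono σ hj1)
    _ ≤ 2 * 16 ^ (mtConst k * 2 ^ j) := card_avoidSets_two_pow σ j
    _ ≤ 2 ^ n * 16 ^ (2 * mtConst k * n) := by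
        refine Nat.mul_le_mul (Nat.le_self_pow hn.ne' 2) (Nat.pow_le_pow_right (by norm_num) ?_)
        rw [mul_comm 2, mul_assoc]
        exact Nat.mul_le_mul_left _ hj2
    _ = _ := by rw [mul_pow, ← pow_mul]

/-- No cut splits `σ` into a lower left and an upper right part. -/
def SumIndecomposable : Prop :=
  ∀ a : ℕ, 0 < a → a < k → ∃ i j : Fin k, (i : ℕ) < a ∧ a ≤ (j : ℕ) ∧ σ j ≤ σ i

theorem sumIndecomposable_or_rev :
    SumIndecomposable σ ∨ SumIndecomposable (Fin.revPerm.trans σ) := by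
  by_contra h
  simp only [SumIndecomposable, not_or] at h
  push Not at h
  obtain ⟨⟨a, ha0, hak, h1⟩, b, hb0, hbk, h2⟩ := h
  have h3 := h1 ⟨0, by omega⟩ ⟨k - 1, by omega⟩ ha0 (by simp; omega)
  have h4 := h2 ⟨0, by omega⟩ ⟨k - 1, by omega⟩ hb0 (by simp; omega)
  simp only [Equiv.trans_apply, Fin.revPerm_apply] at h4
  rw [show (⟨0, by omega⟩ : Fin k).rev = ⟨k - 1, by omega⟩ from Fin.ext (by simp),
    show (⟨k - 1, by omega⟩ : Fin k).rev = ⟨0, by omega⟩ from Fin.ext (by simp; omega)] at h4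
  exact lt_asymm h3 h4

theorem patternIn_rev {n : ℕ} (π : Equiv.Perm (Fin n)) :
    PatternIn (Fin.revPerm.trans σ) (Fin.revPerm.trans π) ↔ PatternIn σ π := by
  constructor <;> rintro ⟨f, hf, h⟩ <;>
    refine ⟨fun i => (f i.rev).rev, fun a b hab => ?_, fun i j => ?_⟩
  · exact Fin.rev_lt_rev.2 (hf (Fin.rev_lt_rev.2 hab))
  · simpa using h i.rev j.rev
  · exact Fin.rev_lt_rev.2 (hf (Fin.rev_lt_rev.2 hab))
  · simpa using h i.rev j.rev

theorem avoidCount_rev (n : ℕ) : avoidCount (Fin.revPerm.trans σ) n = avoidCount σ n := by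
  refine Nat.card_congr (Equiv.subtypeEquiv
    ⟨fun π => Fin.revPerm.trans π, fun π => Fin.revPerm.trans π, fun π => by ext; simp,
      fun π => by ext; simp⟩ fun π => ?_)
  have e : Fin.revPerm.trans (Fin.revPerm.trans π) = π := by ext; simp
  rw [Equiv.coe_fn_mk, ← patternIn_rev σ (Fin.revPerm.trans π), e]

/-- **Arratia's inequality.** -/
theorem avoidCount_mul_le (m n : ℕ) :
    avoidCount σ m * avoidCount σ n ≤ avoidCount σ (m + n) := by
  wlog hσ : SumIndecomposable σ generalizing σ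
  · simpa only [avoidCount_rev] using
      this (Fin.revPerm.trans σ) ((sumIndecomposable_or_rev σ).resolve_left hσ)
  rw [avoidCount, avoidCount, ← Nat.card_prod]
  let glue : Equiv.Perm (Fin m) × Equiv.Perm (Fin n) → Equiv.Perm (Fin (m + n)) := fun p =>
    finSumFinEquiv.permCongr (Equiv.sumCongr p.1 p.2)
  have happl : ∀ p i, glue p (Fin.castAdd n i) = Fin.castAdd n (p.1 i) := fun p i => by
    simp [glue, Equiv.permCongr_apply]
  have happr : ∀ p i, glue p (Fin.natAdd m i) = Fin.natAdd m (p.2 i) := fun p i => by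
    simp [glue, Equiv.permCongr_apply]
  refine Nat.card_le_card_of_injective (fun p => ⟨glue (p.1.1, p.2.1), ?_⟩) ?_
  · rintro ⟨f, hf, h⟩
    obtain ⟨a, ha⟩ : ∃ a, a = #(univ.filter fun i : Fin k => (f i : ℕ) < m) := ⟨_, rfl⟩
    have hiff : ∀ i : Fin k, (i : ℕ) < a ↔ (f i : ℕ) < m := fun i => by
      constructor
      · intro hi
        by_contra hm
        have : univ.filter (fun i : Fin k => (f i : ℕ) < m) ⊆ Finset.Iio i := fun x hx => by
          rw [Finset.mem_Iio]
          by_contra hle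
          exact hm (lt_of_le_of_lt (hf.monotone (not_lt.1 hle)) (mem_filter.1 hx).2)
        have := card_le_card this
        rw [← ha, Fin.card_Iio] at this
        omega
      · intro hm
        have : Finset.Iic i ⊆ univ.filter (fun i : Fin k => (f i : ℕ) < m) := fun x hx =>
          mem_filter.2 ⟨mem_univ _, lt_of_le_of_lt (hf.monotone (Finset.mem_Iic.1 hx)) hm⟩
        have := card_le_card this
        rw [← ha, Fin.card_Iic] at this
        omega
    rcases Nat.eq_zero_or_pos a with h0 | h0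
    · have hge : ∀ i, m ≤ (f i : ℕ) := fun i => not_lt.1 fun h => by
        have := (hiff i).2 h; omega
      obtain ⟨g, hg⟩ : ∃ g : Fin k → Fin n, ∀ i, Fin.natAdd m (g i) = f i :=
        ⟨fun i => ⟨f i - m, by have := hge i; omega⟩, fun i => Fin.ext (by
          have := hge i; simp; omega)⟩
      refine p.2.2 ⟨g, fun x y hxy => ?_, fun i j => ?_⟩
      · have := hf hxy; rw [← hg x, ← hg y] at this; simpa using this
      · rw [h i j, ← hg i, ← hg j, happr, happr]
        simp
    rcases (show a ≤ k from ha ▸ (card_le_univ _).trans_eq (Fintype.card_fin k)).eq_or_lt with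
      h1 | h1
    · have hlt : ∀ i, (f i : ℕ) < m := fun i => (hiff i).1 (h1 ▸ i.isLt)
      refine p.1.2 ⟨fun i => ⟨f i, hlt i⟩, fun x y hxy => hf hxy, fun i j => ?_⟩
      have e : ∀ i, f i = Fin.castAdd n ⟨f i, hlt i⟩ := fun i => Fin.ext rfl
      rw [h i j, e i, e j, happl, happl]
      rfl
    obtain ⟨i, j, hia, haj, hji⟩ := hσ a h0 h1
    refine absurd ((h i j).2 ?_) (not_lt.2 hji)
    have hi := (hiff i).1 hia
    have hj : m ≤ (f j : ℕ) := not_lt.1 fun h => by have := (hiff j).2 h; omega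
    rw [show f i = Fin.castAdd n ⟨f i, hi⟩ from Fin.ext rfl,
      show f j = Fin.natAdd m ⟨f j - m, by omega⟩ from Fin.ext (by simp; omega), happl, happr]
    simp only [Fin.lt_def, Fin.val_castAdd, Fin.val_natAdd]
    omega
  · rintro ⟨⟨p, _⟩, ⟨q, _⟩⟩ ⟨⟨p', _⟩, ⟨q', _⟩⟩ h
    have h := congrArg Subtype.val h
    simp only [Prod.mk.injEq, Subtype.mk.injEq]
    constructor <;> ext i
    · have := congrArg (fun e => (e (Fin.castAdd n i) : ℕ)) h
      simpa [happl] using this
    · have := congrArg (fun e => (e (Fin.natAdd m i) : ℕ)) h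
      simpa [happr] using this

/-- **The Stanley–Wilf limit.** -/
theorem tendsto_avoidCount :
    ∃ L : ℝ, Tendsto (fun n => (avoidCount σ n : ℝ) ^ ((n : ℝ)⁻¹)) atTop (𝓝 L) := by
  rcases Nat.eq_zero_or_pos (avoidCount σ 1) with h1 | h1
  · refine ⟨0, tendsto_const_nhds.congr' ((eventually_ge_atTop 1).mono fun n hn => ?_)⟩
    have h0 : avoidCount σ n = 0 := by
      refine @Nat.card_of_isEmpty _ ⟨fun π => ?_⟩
      rw [avoidCount, Nat.card_eq_zero] at h1
      rcases h1 with h1 | h1
      · obtain ⟨f, hf, h⟩ : PatternIn σ (1 : Equiv.Perm (Fin 1)) :=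
          not_not.1 fun h => h1.false ⟨1, h⟩
        have : Subsingleton (Fin k) := hf.injective.subsingleton
        refine π.2 ⟨fun _ => ⟨0, hn⟩, fun a b hab => absurd hab (by simp [Subsingleton.elim a b]),
          fun i j => by simp [Subsingleton.elim i j]⟩
      · exact absurd h1 (not_infinite_iff_finite.2 inferInstance)
    simp only [h0, Nat.cast_zero]
    rw [Real.zero_rpow (inv_ne_zero (by positivity))]
  have hpos : ∀ n, 0 < avoidCount σ (n + 1) := fun n => by
    induction n with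
    | zero => exact h1
    | succ n ih => exact lt_of_lt_of_le (Nat.mul_pos ih h1) (avoidCount_mul_le σ _ _)
  obtain ⟨u, hu⟩ : ∃ u : ℕ → ℝ, u = fun n => -Real.log (avoidCount σ n) := ⟨_, rfl⟩
  have h00 : 0 ≤ u 0 := by
    have h : avoidCount σ 0 ≤ 1 := by
      refine (Nat.card_le_card_of_injective (Subtype.val) Subtype.val_injective).trans ?_
      simp [Nat.card_eq_fintype_card]
    rw [hu]
    rcases Nat.le_one_iff_eq_zero_or_eq_one.1 h with e | e <;> simp [e]
  have hsub : Subadditive u := fun m n => by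
    rcases Nat.eq_zero_or_pos m with rfl | hm
    · simpa using add_le_add_right h00 (u n)
    rcases Nat.eq_zero_or_pos n with rfl | hn
    · simpa using add_le_add_left h00 (u m)
    obtain ⟨a, rfl⟩ : ∃ a, m = a + 1 := ⟨m - 1, by omega⟩
    obtain ⟨b, rfl⟩ : ∃ b, n = b + 1 := ⟨n - 1, by omega⟩
    have ha : (0:ℝ) < avoidCount σ (a + 1) := Nat.cast_pos.2 (hpos a)
    have hb : (0:ℝ) < avoidCount σ (b + 1) := Nat.cast_pos.2 (hpos b)
    simp only [hu]
    rw [← neg_add, neg_le_neg_iff, ← Real.log_mul ha.ne' hb.ne']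
    exact Real.log_le_log (mul_pos ha hb) (by exact_mod_cast avoidCount_mul_le σ (a + 1) (b + 1))
  obtain ⟨K, hK⟩ : ∃ K : ℕ, K = 2 * 16 ^ (2 * mtConst k) := ⟨_, rfl⟩
  have hbdd : BddBelow (Set.range fun n => u n / n) := by
    refine ⟨-Real.log K, ?_⟩
    rintro _ ⟨n, rfl⟩
    rcases n with _ | n
    · simp [Real.log_natCast_nonneg]
    simp only [hu]
    rw [le_div_iff₀ (by positivity), neg_mul, neg_le_neg_iff, mul_comm,
      ← Real.log_pow]
    exact Real.log_le_log (Nat.cast_pos.2 (hpos n))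
      (by exact_mod_cast hK ▸ avoidCount_le σ (Nat.succ_pos n))
  refine ⟨Real.exp (-hsub.lim), ((hsub.tendsto_lim hbdd).neg.rexp).congr'
    ((eventually_ge_atTop 1).mono fun n hn => ?_)⟩
  obtain ⟨n, rfl⟩ : ∃ a, n = a + 1 := ⟨n - 1, by omega⟩
  simp only [hu]
  rw [Real.rpow_def_of_pos (Nat.cast_pos.2 (hpos n))]
  congr 1
  ring

end FA.StanleyWilf
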