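import Mathlib.Combinatorics.Pigeonhole
import Mathlib.Data.Finset.Sort
import Mathlib.Data.Nat.Choose.Basic
import Mathlib.Order.Interval.Finset.Nat
import Mathlib.Tactic

/-!
# The theorem of Marcus and Tardos

A set of cells of the `n × n` grid that contains no copy of a `k × k` permutation matrix has at
most `2 k ^ 4 C(k ^ 2, k) n` cells (Marcus and Tardos 2004, the Füredi–Hajnal conjecture): cut
the grid into blocks of side `k ^ 2`, of which few are wide or tall.
-/

set_option autoImplicit false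

namespace FA.StanleyWilf

open Finset

/-- `M` contains the permutation matrix of `σ`. -/
def GridContains {k : ℕ} (M : Finset (ℕ × ℕ)) (σ : Equiv.Perm (Fin k)) : Prop :=
  ∃ r c : Fin k → ℕ, StrictMono r ∧ StrictMono c ∧ ∀ i, (r i, c (σ i)) ∈ M

/-- The square grid. -/
abbrev grid (n : ℕ) : Finset (ℕ × ℕ) := range n ×ˢ range n

/-- The block of a cell. -/
abbrev block (s : ℕ) (x : ℕ × ℕ) : ℕ × ℕ := (x.1 / s, x.2 / s)

/-- The columns of a block met by `M`. -/
def blockCols (M : Finset (ℕ × ℕ)) (s : ℕ) (b : ℕ × ℕ) : Finset ℕ :=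
  (M.filter fun x => block s x = b).image Prod.snd

/-- The blocks meeting `k` columns or more. -/
def wideBlocks (M : Finset (ℕ × ℕ)) (s k : ℕ) : Finset (ℕ × ℕ) :=
  (M.image (block s)).filter fun b => k ≤ #(blockCols M s b)

/-- The constant of Marcus and Tardos. -/
def mtConst (k : ℕ) : ℕ := 2 * k ^ 4 * (k ^ 2).choose k

variable {k : ℕ} {σ : Equiv.Perm (Fin k)} {M : Finset (ℕ × ℕ)}

theorem GridContains.mono {N : Finset (ℕ × ℕ)} (h : GridContains M σ) (hMN : M ⊆ N) :
    GridContains N σ := by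
  obtain ⟨r, c, hr, hc, h⟩ := h
  exact ⟨r, c, hr, hc, fun i => hMN (h i)⟩

theorem GridContains.swap (h : GridContains (M.image Prod.swap) σ⁻¹) : GridContains M σ := by
  obtain ⟨r, c, hr, hc, h⟩ := h
  refine ⟨c, r, hc, hr, fun i => ?_⟩
  obtain ⟨x, hx, he⟩ := mem_image.1 (h (σ i))
  simp only [Equiv.Perm.inv_def, Equiv.symm_apply_apply] at he
  obtain rfl : x = (c i, r (σ i)) := by
    rw [← Prod.swap_swap x, he]; rfl
  exact hx

theorem gridContains_of_image_block {s : ℕ} (h : GridContains (M.image (block s)) σ) :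
    GridContains M σ := by
  obtain ⟨r, c, hr, hc, h⟩ := h
  choose x hx he using fun i => mem_image.1 (h i)
  simp only [block, Prod.mk.injEq] at he
  refine ⟨fun i => (x i).1, fun j => (x (σ.symm j)).2, fun a b hab => ?_, fun a b hab => ?_,
    fun i => by simpa using hx i⟩
  · by_contra hle
    have := Nat.div_le_div_right (c := s) (not_lt.1 hle)
    rw [(he a).1, (he b).1] at this
    exact absurd (hr hab) (not_lt.2 this)
  · by_contra hle
    have := Nat.div_le_div_right (c := s) (not_lt.1 hle)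
    rw [(he (σ.symm a)).2, (he (σ.symm b)).2, Equiv.apply_symm_apply, Equiv.apply_symm_apply]
      at this
    exact absurd (hc hab) (not_lt.2 this)

theorem card_wide_le (hk : 1 ≤ k) {s m : ℕ} (hM : M ⊆ grid (s * m)) (hs : 0 < s)
    (hav : ¬GridContains M σ) : #(wideBlocks M s k) ≤ (k - 1) * s.choose k * m := by
  classical
  have hcol : ∀ b ∈ wideBlocks M s k, b.2 ∈ range m := fun b hb => by
    obtain ⟨x, hx, rfl⟩ := mem_image.1 (mem_filter.1 hb).1
    have := mem_range.1 (mem_product.1 (hM hx)).2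
    exact mem_range.2 (Nat.div_lt_of_lt_mul this)
  refine (card_le_mul_card_image_of_maps_to hcol ((k - 1) * s.choose k) fun J _ => ?_).trans
    (by rw [card_range])
  by_contra hbig
  have hchoice : ∀ b ∈ wideBlocks M s k, ∃ S ⊆ blockCols M s b, #S = k := fun b hb =>
    exists_subset_card_eq (mem_filter.1 hb).2
  choose! pickS hsub hcard using hchoice
  have hmaps : ∀ b ∈ (wideBlocks M s k).filter (fun b => b.2 = J),
      pickS b ∈ (Ico (J * s) (J * s + s)).powersetCard k := fun b hb => by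
    obtain ⟨hbw, rfl⟩ := mem_filter.1 hb
    refine mem_powersetCard.2 ⟨fun y hy => ?_, hcard b hbw⟩
    obtain ⟨x, hx, rfl⟩ := mem_image.1 (hsub b hbw hy)
    obtain ⟨-, rfl⟩ := mem_filter.1 hx
    have h1 := Nat.div_mul_le_self x.2 s
    have h2 := Nat.lt_div_mul_add (a := x.2) hs
    exact mem_Ico.2 ⟨h1, h2⟩
  obtain ⟨S, hS, hlt⟩ := exists_lt_card_fiber_of_mul_lt_card_of_maps_to (n := k - 1) hmaps (by
    rw [card_powersetCard, Nat.card_Ico, Nat.add_sub_cancel_left, mul_comm]
    exact not_le.1 hbig)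
  obtain ⟨_, hScard⟩ := mem_powersetCard.1 hS
  obtain ⟨F, hF⟩ : ∃ F, F = (((wideBlocks M s k).filter fun b => b.2 = J).filter
      fun b => pickS b = S).image Prod.fst := ⟨_, rfl⟩
  have hFcard : k ≤ #F := by
    rw [hF, card_image_of_injOn]
    · omega
    · intro a ha b hb hab
      simp only [coe_filter, Set.mem_ofPred_eq, mem_filter] at ha hb
      exact Prod.ext hab (ha.1.2.trans hb.1.2.symm)
  obtain ⟨F', hF'sub, hF'card⟩ := exists_subset_card_eq hFcard
  have hcell : ∀ i : Fin k, ∃ x ∈ M, x.1 / s = F'.orderEmbOfFin hF'card i ∧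
      x.2 = S.orderEmbOfFin hScard (σ i) := fun i => by
    have hmem := hF'sub (orderEmbOfFin_mem F' hF'card i)
    rw [hF, mem_image] at hmem
    obtain ⟨b, hb, hbI⟩ := hmem
    obtain ⟨hb, hbS⟩ := mem_filter.1 hb
    obtain ⟨hb, -⟩ := mem_filter.1 hb
    have hy := hsub b hb (show S.orderEmbOfFin hScard (σ i) ∈ pickS b by
      rw [hbS]; exact orderEmbOfFin_mem _ _ _)
    obtain ⟨x, hx, hxy⟩ := mem_image.1 hy
    obtain ⟨hxM, hxb⟩ := mem_filter.1 hx
    exact ⟨x, hxM, by rw [← hbI, ← hxb], hxy⟩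
  choose x hxM hx1 hx2 using hcell
  refine hav ⟨fun i => (x i).1, S.orderEmbOfFin hScard, fun a b hab => ?_,
    (S.orderEmbOfFin hScard).strictMono, fun i => ?_⟩
  · by_contra hle
    have := Nat.div_le_div_right (c := s) (not_lt.1 hle)
    rw [hx1, hx1] at this
    exact absurd ((F'.orderEmbOfFin hF'card).strictMono hab) (not_lt.2 this)
  · rw [← hx2]; exact hxM i

/-- **Marcus–Tardos.** -/
theorem card_le_of_avoids : ∀ (n : ℕ) {M : Finset (ℕ × ℕ)}, M ⊆ grid n → ¬GridContains M σ →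
    #M ≤ mtConst k * n := by
  intro n
  induction n using Nat.strong_induction_on with
  | _ n ih =>
  intro M hM hav
  rcases Nat.eq_zero_or_pos k with rfl | hk0
  · exact absurd ⟨Fin.elim0, Fin.elim0, fun a => a.elim0, fun a => a.elim0, fun i => i.elim0⟩ hav
  rcases Nat.eq_or_lt_of_le hk0 with rfl | hk2
  · rcases M.eq_empty_or_nonempty with rfl | ⟨x, hx⟩
    · simp
    · refine absurd ⟨fun _ => x.1, fun _ => x.2, fun a b h => ?_, fun a b h => ?_, fun _ => hx⟩ hav
      all_goals exact absurd h (by simp [Subsingleton.elim a b])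
  obtain ⟨s, hs⟩ : ∃ s, s = k ^ 2 := ⟨_, rfl⟩
  have hs4 : 4 ≤ s := hs ▸ Nat.pow_le_pow_left hk2 2
  obtain ⟨m, hm⟩ : ∃ m, m = n / s := ⟨_, rfl⟩
  have hsm : s * m ≤ n := hm ▸ Nat.mul_div_le n s
  have hrem : n - s * m ≤ s := by
    have := Nat.lt_mul_div_succ n (show 0 < s by omega)
    rw [← hm, mul_add, mul_one] at this
    omega
  obtain ⟨A, hA⟩ : ∃ A, A = M.filter fun x => x ∈ grid (s * m) := ⟨_, rfl⟩
  have hAgrid : A ⊆ grid (s * m) := fun x hx => (mem_filter.1 (hA ▸ hx)).2
  have hAav : ¬GridContains A σ := fun h => hav (h.mono (hA ▸ filter_subset _ _))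
  have hout : #M ≤ #A + 2 * (s * n) := by
    have hsub : M ⊆ A ∪ (Ico (s * m) n ×ˢ range n ∪ range n ×ˢ Ico (s * m) n) := fun x hx => by
      have := hM hx
      simp only [hA, mem_union, mem_filter, mem_product, mem_range, mem_Ico] at this ⊢
      by_cases h1 : x.1 < s * m
      · by_cases h2 : x.2 < s * m
        · exact Or.inl ⟨hx, h1, h2⟩
        · exact Or.inr (Or.inr ⟨this.1, not_lt.1 h2, this.2⟩)
      · exact Or.inr (Or.inl ⟨⟨not_lt.1 h1, this.1⟩, this.2⟩)
    refine (card_le_card hsub).trans ((card_union_le _ _).trans ?_)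
    refine add_le_add le_rfl ((card_union_le _ _).trans ?_)
    rw [card_product, card_product, Nat.card_Ico, card_range]
    have := Nat.mul_le_mul_right n hrem
    linarith [Nat.mul_comm n (n - s * m)]
  obtain ⟨B, hB⟩ : ∃ B, B = A.image (block s) := ⟨_, rfl⟩
  have hBgrid : B ⊆ grid m := fun b hb => by
    obtain ⟨x, hx, rfl⟩ := mem_image.1 (hB ▸ hb)
    have := mem_product.1 (hAgrid hx)
    simp only [mem_product, mem_range, block] at this ⊢
    exact ⟨Nat.div_lt_of_lt_mul this.1, Nat.div_lt_of_lt_mul this.2⟩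
  have hBcard : #B ≤ mtConst k * m := by
    rcases Nat.eq_zero_or_pos n with rfl | hn
    · simp_all [card_eq_zero]
    exact ih m (hm ▸ Nat.div_lt_self hn (by omega)) hBgrid
      fun h => hAav (gridContains_of_image_block (hB ▸ h))
  obtain ⟨A', hA'⟩ : ∃ A', A' = A.image Prod.swap := ⟨_, rfl⟩
  have hA'grid : A' ⊆ grid (s * m) := fun x hx => by
    obtain ⟨y, hy, rfl⟩ := mem_image.1 (hA' ▸ hx)
    have := hAgrid hy
    simp only [mem_product, Prod.fst_swap, Prod.snd_swap] at this ⊢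
    exact this.symm
  have hwide := card_wide_le (σ := σ) hk0 hAgrid (by omega) hAav
  have htall := card_wide_le (σ := σ⁻¹) hk0 hA'grid (by omega) fun h => hAav (hA' ▸ h).swap
  obtain ⟨E, hE⟩ : ∃ E, E = wideBlocks A s k ∪ (wideBlocks A' s k).image Prod.swap := ⟨_, rfl⟩
  have hEcard : #E ≤ 2 * ((k - 1) * s.choose k * m) := by
    rw [hE, two_mul]
    exact (card_union_le _ _).trans (add_le_add hwide (card_image_le.trans htall))
  have hfib : ∀ b ∈ B, #{x ∈ A | block s x = b} ≤
      (if b ∈ E then s * s else (k - 1) * (k - 1)) := by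
    intro b hb
    split_ifs with hbE
    · refine (card_le_card (t := Ico (b.1 * s) (b.1 * s + s) ×ˢ Ico (b.2 * s) (b.2 * s + s))
        fun x hx => ?_).trans (by simp)
      obtain ⟨-, rfl⟩ := mem_filter.1 hx
      simp only [mem_product, mem_Ico]
      exact ⟨⟨Nat.div_mul_le_self _ _, Nat.lt_div_mul_add (by omega)⟩,
        ⟨Nat.div_mul_le_self _ _, Nat.lt_div_mul_add (by omega)⟩⟩
    · refine (card_le_card (t := blockCols A' s b.swap ×ˢ blockCols A s b) fun x hx => ?_).trans ?_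
      · obtain ⟨hxA, hxb⟩ := mem_filter.1 hx
        refine mem_product.2 ⟨mem_image.2 ⟨x.swap, mem_filter.2 ⟨hA' ▸ mem_image_of_mem _ hxA, ?_⟩,
          rfl⟩, mem_image.2 ⟨x, mem_filter.2 ⟨hxA, hxb⟩, rfl⟩⟩
        rw [← hxb]; rfl
      · rw [hE, mem_union, not_or] at hbE
        have h1 : #(blockCols A s b) < k := not_le.1 fun h =>
          hbE.1 (mem_filter.2 ⟨hB ▸ hb, h⟩)
        have h2 : #(blockCols A' s b.swap) < k := not_le.1 fun h => hbE.2 <| by
          refine mem_image.2 ⟨b.swap, mem_filter.2 ⟨?_, h⟩, b.swap_swap⟩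
          obtain ⟨x, hx, rfl⟩ := mem_image.1 (hB ▸ hb)
          exact mem_image.2 ⟨x.swap, hA' ▸ mem_image_of_mem _ hx, rfl⟩
        rw [card_product]
        exact Nat.mul_le_mul (by omega) (by omega)
  have hAcard : #A ≤ #E * (s * s) + #B * ((k - 1) * (k - 1)) := by
    rw [card_eq_sum_card_fiberwise (f := block s) (t := B) fun x hx => hB ▸ mem_image_of_mem _ hx]
    refine (sum_le_sum hfib).trans ?_
    rw [sum_ite, sum_const, sum_const, smul_eq_mul, smul_eq_mul]
    exact add_le_add (Nat.mul_le_mul_right _ (card_le_card fun b hb => (mem_filter.1 hb).2))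
      (Nat.mul_le_mul_right _ (card_filter_le _ _))
  obtain ⟨C, hC⟩ : ∃ C, C = s.choose k := ⟨_, rfl⟩
  have hC1 : 1 ≤ C := hC ▸ Nat.choose_pos (hs ▸ Nat.le_self_pow two_ne_zero k)
  rw [← hC] at hEcard
  have hconst : mtConst k = 2 * (s * s) * C := by rw [mtConst, hC, hs]; ring
  rw [hconst] at hBcard ⊢
  obtain ⟨j, rfl⟩ : ∃ j, k = j + 1 := ⟨k - 1, by omega⟩
  rw [Nat.add_sub_cancel] at hEcard hAcard
  have e1 := Nat.mul_le_mul_right (s * s) hEcard
  have e2 := Nat.mul_le_mul_right (j * j) hBcard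
  have e3 : 2 * (j * C * s + C * s * (j * j) + s) ≤ 2 * (s * s) * C := by
    rw [hs]; nlinarith
  calc #M ≤ 2 * (j * C * m) * (s * s) + 2 * (s * s) * C * m * (j * j) + 2 * (s * n) := by linarith
    _ = (2 * (j * C * s) + 2 * (C * s * (j * j))) * (s * m) + 2 * s * n := by ring
    _ ≤ (2 * (j * C * s) + 2 * (C * s * (j * j))) * n + 2 * s * n := by gcongr
    _ = 2 * (j * C * s + C * s * (j * j) + s) * n := by ring
    _ ≤ _ := Nat.mul_le_mul_right n e3

end FA.StanleyWilf
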